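import Fermat.Agent.TW.OrdField.IsOrd
import Fermat.Agent.TW.Bridge.UnrHom
import Fermat.Agent.TW.Bridge.ShapeLocal

/-!
# TW / OrdField: `ordFieldOut : OrdFieldOut p` (ruling R13, both halves)

`F := ordField p N = ℚ_p(μ_{p (p^{pN} - 1)})` is an ORD field (`isOrdField_ordField`), and it
kills every unramified level-constant character `χ` of `G_p` of exponent dividing `p N`:
`σ = φ^n · i · w` (`φ` a Frobenius lift, `i` inertia, `w` in a level where `χ = 1` which fixes a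
global primitive `(p^{pN} - 1)`-th root of unity); `σ` fixes `ζ`, so `ζ^(p^n) = ζ`, `p N ∣ n` and
`χ σ = χ(φ)^n = 1`.
-/

set_option autoImplicit false
set_option linter.unusedSectionVars false
set_option linter.style.haveILetI false

open IntermediateField

namespace Fermat.Agent.TW.OrdField

open Fermat.Agent.S55 Fermat.Agent.TW.LocFlat Fermat.Agent.TW.Bridge.ShapeLocal
  Fermat.Agent.TW.Bridge.UnrHom

local notation "Qb" => AlgebraicClosure ℚ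

variable {p : ℕ} [hp : Fact p.Prime]

local notation "Ω" => PadicAlgCl p
local notation "Gp" => (PadicAlgCl p ≃ₐ[ℚ_[p]] PadicAlgCl p)

/-- `(p^f - 1) ∣ (p^n - 1)` forces `f ∣ n`. -/
theorem dvd_of_pow_sub_one_dvd {f n : ℕ} (h : p ^ f - 1 ∣ p ^ n - 1) : f ∣ n := by
  have hp2 : 2 ≤ p := hp.out.two_le
  have h1 := Nat.pow_sub_one_mod_pow_sub_one p f n
  rw [Nat.mod_eq_zero_of_dvd h] at h1
  have h2 : p ^ (n % f) = 1 := by
    have : 1 ≤ p ^ (n % f) := Nat.one_le_pow _ _ hp.out.pos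
    omega
  have h3 : n % f = 0 := by
    by_contra h0
    have : 2 ≤ p ^ (n % f) := le_trans hp2 (Nat.le_self_pow h0 p)
    omega
  exact Nat.dvd_of_mod_eq_zero h3

/-- `‖m‖ = 1` in `Ω` for `m` prime to `p`. -/
theorem norm_natCast_eq_one_of_not_dvd {m : ℕ} (hm : ¬ p ∣ m) : ‖((m : ℕ) : Ω)‖ = 1 := by
  rw [← map_natCast (algebraMap ℚ_[p] Ω), PadicAlgCl.norm_extends, Padic.norm_natCast_eq_one_iff]
  exact (Nat.Prime.coprime_iff_not_dvd hp.out).mpr hm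

/-- Two `m`-th roots of unity (`p ∤ m`) at distance `< 1` are equal. -/
theorem eq_of_norm_sub_lt_one {m : ℕ} (hm0 : m ≠ 0) (hm : ¬ p ∣ m) {ξ ξ' : Ω} (hξ : ξ ^ m = 1)
    (hξ' : ξ' ^ m = 1) (h : ‖ξ' - ξ‖ < 1) : ξ' = ξ := by
  obtain ⟨ζ, hζ⟩ := exists_isPrimitiveRoot (p := p) m hm0
  haveI : NeZero m := ⟨hm0⟩
  obtain ⟨a, -, rfl⟩ := hζ.eq_pow_of_pow_eq_one hξ
  obtain ⟨b, -, rfl⟩ := hζ.eq_pow_of_pow_eq_one hξ'
  have hζ1 : ‖ζ‖ = 1 := Fermat.Agent.TW.K1.norm_eq_one_of_isPrimitiveRoot hm0 hζ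
  have hkey : ζ ^ b = ζ ^ a * ζ ^ (b + (m - 1) * a) := by
    rw [← pow_add]
    have h1 : a + (b + (m - 1) * a) = b + m * a := by
      obtain ⟨k, rfl⟩ : ∃ k, m = k + 1 := ⟨m - 1, by omega⟩
      simp only [Nat.add_sub_cancel]
      ring
    rw [h1, pow_add, pow_mul, hζ.pow_eq_one, one_pow, mul_one]
  by_cases hd : m ∣ b + (m - 1) * a
  · obtain ⟨c, hc⟩ := hd
    rw [hkey, hc, pow_mul, hζ.pow_eq_one, one_pow, mul_one]
  · exfalso
    have h2 := Fermat.Agent.TW.KumEigen.norm_pow_sub_one_eq_one hζ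
      (norm_natCast_eq_one_of_not_dvd hm) hd
    have h3 : ζ ^ b - ζ ^ a = ζ ^ a * (ζ ^ (b + (m - 1) * a) - 1) := by
      rw [mul_sub, ← hkey, mul_one]
    rw [h3, norm_mul, norm_pow, hζ1, one_pow, one_mul, h2] at h
    exact lt_irrefl _ h

/-- Norm-inertia fixes the roots of unity of order prime to `p`. -/
theorem apply_eq_of_normInertia {m : ℕ} (hm0 : m ≠ 0) (hm : ¬ p ∣ m) {ξ : Ω} (hξ : ξ ^ m = 1)
    {s : Gp} (hs : ∀ y : Ω, ‖y‖ ≤ 1 → ‖s y - y‖ < 1) : s ξ = ξ := by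
  have h1 : ‖ξ‖ = 1 := Fermat.Agent.TW.KumEigen.norm_eq_one_of_pow_eq_one hm0 hξ
  exact eq_of_norm_sub_lt_one hm0 hm hξ (by rw [← map_pow, hξ, map_one]) (hs ξ h1.le)

/-- A norm-Frobenius raises the roots of unity of order prime to `p` to the `p`-th power. -/
theorem apply_eq_pow_of_normFrobenius {m : ℕ} (hm0 : m ≠ 0) (hm : ¬ p ∣ m) {ξ : Ω}
    (hξ : ξ ^ m = 1) {φ : Gp} (hφ : ∀ y : Ω, ‖y‖ ≤ 1 → ‖φ y - y ^ p‖ < 1) : φ ξ = ξ ^ p := by
  have h1 : ‖ξ‖ = 1 := Fermat.Agent.TW.KumEigen.norm_eq_one_of_pow_eq_one hm0 hξ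
  exact eq_of_norm_sub_lt_one hm0 hm (by rw [← pow_mul, mul_comm, pow_mul, hξ, one_pow])
    (by rw [← map_pow, hξ, map_one]) (hφ ξ h1.le)

theorem pow_apply_eq_pow_of_normFrobenius {m : ℕ} (hm0 : m ≠ 0) (hm : ¬ p ∣ m) {ξ : Ω}
    (hξ : ξ ^ m = 1) {φ : Gp} (hφ : ∀ y : Ω, ‖y‖ ≤ 1 → ‖φ y - y ^ p‖ < 1) (n : ℕ) :
    (φ ^ n) ξ = ξ ^ (p ^ n) := by
  induction n with
  | zero => simp
  | succ n ih =>
    rw [pow_succ', AlgEquiv.mul_apply, ih, map_pow, apply_eq_pow_of_normFrobenius hm0 hm hξ hφ,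
      ← pow_mul, ← pow_succ']

/-- **(UNR-KILL)** -/
theorem unr_kill {N : ℕ} (hN : 0 < N) (A : Type) [CommGroup A] (χ : Gp →* A)
    (hexp : ∀ g, χ g ^ (p * N) = 1)
    (hLC : (levelOf (localGaloisToGlobal p)).IsLC₁ χ)
    (hunr : ∀ t : Gp, (∀ y : Ω, ‖y‖ ≤ 1 → ‖t y - y‖ < 1) → χ t = 1)
    (σ : Gp) (hσ : σ ∈ (ordField p N).fixingSubgroup) : χ σ = 1 := by
  have hf := one_le_mul_of_pos (p := p) hN
  have hm0 := pow_sub_one_ne_zero (p := p) hf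
  have hmp : ¬ p ∣ p ^ (p * N) - 1 := by
    intro hd
    have h2 : p ∣ p ^ (p * N) := dvd_pow_self p (by omega)
    have h3 : p ^ (p * N) = (p ^ (p * N) - 1) + 1 := by
      have : 1 ≤ p ^ (p * N) := Nat.one_le_pow _ _ hp.out.pos
      omega
    rw [h3] at h2
    exact hp.out.one_lt.ne' (Nat.dvd_one.mp ((Nat.dvd_add_right hd).mp h2))
  -- Frobenius lift
  obtain ⟨φ, hφ⟩ := exists_frobenius_lift p
  have hφN : IsNormFrobenius p φ := (isNormFrobenius_iff φ).mpr hφ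
  -- the level of `χ`
  obtain ⟨F₀, hF₀fd, hlev⟩ := (isLevelConstant₁_iff (localGaloisToGlobal p) (χ : Gp → A)).mpr hLC
  -- a global primitive root of unity
  obtain ⟨ζ₀, hζ₀⟩ : ∃ ζ₀ : Qb, IsPrimitiveRoot ζ₀ (p ^ (p * N) - 1) := by
    haveI : NeZero (((p ^ (p * N) - 1 : ℕ) : ℕ) : Qb) := ⟨by exact_mod_cast hm0⟩
    exact HasEnoughRootsOfUnity.exists_primitiveRoot Qb _
  set ζ : Ω := padicEmbedding p ζ₀ with hζdef
  have hζpow : ζ ^ (p ^ (p * N) - 1) = 1 := by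
    rw [hζdef, ← map_pow, hζ₀.pow_eq_one, map_one]
  have hζprim : IsPrimitiveRoot ζ (p ^ (p * N) - 1) :=
    hζ₀.map_of_injective (padicEmbedding p).toRingHom.injective
  -- the level field
  haveI := hF₀fd
  haveI : FiniteDimensional ℚ (adjoin ℚ {ζ₀}) :=
    adjoin.finiteDimensional ((hζ₀.isIntegral (Nat.pos_of_ne_zero hm0)).tower_top)
  obtain ⟨F, hle, hFgal, hFfd⟩ := exists_isGalois_ge (F₀ ⊔ adjoin ℚ {ζ₀})
  haveI := hFfd
  haveI : Normal ℚ F := hFgal.to_normal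
  have hF₀le : F₀ ≤ F := le_sup_left.trans hle
  have hζ₀F : ζ₀ ∈ F := hle (le_sup_right (a := F₀) (mem_adjoin_simple_self ℚ ζ₀))
  obtain ⟨n, i, w, hi, hw, rfl⟩ := exists_eq_pow_mul_mul hφ F σ
  -- values of `χ`
  have hχw : χ w = 1 := by
    have := hlev 1 w (IntermediateField.fixingSubgroup_antitone hF₀le hw)
    rwa [one_mul, map_one] at this
  have hiN : IsNormInertia p i := (isNormInertia_iff i).mpr hi
  have hχi : χ i = 1 := hunr i hiN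
  -- action on `ζ`
  have hwζ : w ζ = ζ := by
    rw [hζdef, ← padicEmbedding_localGaloisToGlobal]
    congr 1
    exact (IntermediateField.mem_fixingSubgroup_iff F _).mp hw ζ₀ hζ₀F
  have hiζ : i ζ = ζ := apply_eq_of_normInertia hm0 hmp hζpow hiN
  have hσζ : (φ ^ n * i * w) ζ = ζ := by
    refine (IntermediateField.mem_fixingSubgroup_iff _ _).mp hσ ζ ?_
    apply mem_ordField_of_pow_eq_one
    rw [mul_comm, pow_mul, hζpow, one_pow]
  rw [AlgEquiv.mul_apply, AlgEquiv.mul_apply, hwζ, hiζ,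
    pow_apply_eq_pow_of_normFrobenius hm0 hmp hζpow hφN] at hσζ
  -- `p N ∣ n`
  have hdvd : p ^ (p * N) - 1 ∣ p ^ n - 1 := by
    apply hζprim.dvd_of_pow_eq_one
    have h1 : p ^ n = (p ^ n - 1) + 1 := by
      have : 1 ≤ p ^ n := Nat.one_le_pow _ _ hp.out.pos
      omega
    rw [h1, pow_succ] at hσζ
    have hζ0 : ζ ≠ 0 := hζprim.ne_zero hm0
    exact mul_right_cancel₀ hζ0 (by rw [hσζ, one_mul])
  obtain ⟨c, hc⟩ := dvd_of_pow_sub_one_dvd hdvd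
  rw [map_mul, map_mul, map_pow, hχw, hχi, mul_one, mul_one, hc, pow_mul, hexp, one_pow]

/-- **Contract (ORD-FIELD)**, ruling R13. -/
theorem ordFieldOut (p : ℕ) [Fact p.Prime] : OrdFieldOut p := by
  intro N hN
  refine ⟨ordField p N, isOrdField_ordField p hN, ?_⟩
  intro A _ χ hexp hLC hunr σ hσ
  exact unr_kill hN A χ hexp hLC hunr σ hσ

end Fermat.Agent.TW.OrdField
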