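import Fermat.Agent.TW.OrdField.Degree
import Fermat.Agent.TW.KumEigen.Krasner

/-!
# TW / OrdField: the fields `ℚ_p(ζ)`, `ℚ_p(ζ, ζ_p)` and `ℚ_p(ζ, π)`
(`ζ` of order `p ^ f - 1`, `ζ_p` of order `p`, `π ^ (p-1) = -p`) in norm language

* `finrank_adjoin_rootOfUnity` : `ℚ_p(ζ)/ℚ_p` is unramified of degree exactly `f`;
* `CycloPair` : for `F = ℚ_p(ζ, ζ_p)`: `e = p - 1`, residue degree `f`, `[F : ℚ_p] = f (p-1)`,
  **(V)** the value group of `F` is `‖ζ_p - 1‖ ^ ℤ`, and the residue classes of the unit ball of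
  `F` are `0` and the powers of `ζ`;
* `RootPair` : the same for `E = ℚ_p(ζ, π)` with the value group `‖π‖ ^ ℤ`.
-/

set_option autoImplicit false
set_option linter.unusedSectionVars false
set_option linter.style.haveILetI false

open IsLocalRing IntermediateField Fermat.Agent.CFT Fermat.Agent.CFT.PadicTower
  Fermat.Agent.CFT.KummerLocal Fermat.Agent.TW.K1

namespace Fermat.Agent.TW.OrdField

variable {p : ℕ} [Fact p.Prime]

local notation "Ω" => PadicAlgCl p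

/-- `ℚ_p(ζ)/ℚ_p` has degree exactly `f` for `ζ` a primitive `(p ^ f - 1)`-th root of unity. -/
theorem finrank_adjoin_rootOfUnity {f : ℕ} (hf : 1 ≤ f) {ζ : Ω}
    (hζ : IsPrimitiveRoot ζ (p ^ f - 1)) :
    Module.finrank ℚ_[p] (adjoin ℚ_[p] {ζ}) = f := by
  obtain ⟨hgal, hfd⟩ := isGalois_adjoin_rootOfUnity hf hζ
  haveI := hfd
  haveI := intRing_isDiscreteValuationRing p (adjoin ℚ_[p] {ζ})
  haveI := intRing_isFractionRing p (adjoin ℚ_[p] {ζ})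
  refine le_antisymm (finrank_adjoin_rootOfUnity_le hf hζ) ?_
  refine (le_inertDeg _ hf (mem_adjoin_simple_self ℚ_[p] ζ) hζ).trans ?_
  exact inertDeg_le_finrank ℤ_[p] ℚ_[p] _

/-- `[ℚ_p(ζ_p) : ℚ_p] ≤ p - 1`. -/
theorem finrank_adjoin_zetap_le {ζp : Ω} (hζp : IsPrimitiveRoot ζp p) :
    Module.finrank ℚ_[p] (adjoin ℚ_[p] {ζp}) ≤ p - 1 := by
  have hp : p.Prime := Fact.out
  have hint : IsIntegral ℚ_[p] ζp := (hζp.isIntegral hp.pos).tower_top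
  rw [adjoin.finrank hint]
  have hroot : Polynomial.aeval ζp (Polynomial.cyclotomic p ℚ_[p]) = 0 := by
    rw [Polynomial.aeval_def, Polynomial.eval₂_eq_eval_map, Polynomial.map_cyclotomic]
    haveI : NeZero ((p : ℕ) : Ω) := ⟨by exact_mod_cast hp.ne_zero⟩
    exact (Polynomial.isRoot_cyclotomic_iff).mpr hζp
  have hne : Polynomial.cyclotomic p ℚ_[p] ≠ 0 := Polynomial.cyclotomic_ne_zero p ℚ_[p]
  have := Polynomial.natDegree_le_of_dvd (minpoly.dvd ℚ_[p] ζp hroot) hne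
  rwa [Polynomial.natDegree_cyclotomic, Nat.totient_prime hp] at this

theorem norm_zetap_sub_one_pow' {ζp : Ω} (hζp : IsPrimitiveRoot ζp p) :
    ‖ζp - 1‖ ^ (p - 1) = ‖((p : ℕ) : Ω)‖ :=
  Fermat.Agent.TW.KumEigen.norm_zetap_sub_one_pow hζp

section Generic

variable (E : IntermediateField ℚ_[p] (PadicAlgCl p)) [FiniteDimensional ℚ_[p] E]

/-- **The tame numbers in norm language.** Let `E/ℚ_p` be finite of degree `≤ f (p-1)`,
containing a primitive `(p ^ f - 1)`-th root of unity `ζ` and an element `π` with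
`‖π‖ ^ (p-1) = ‖p‖`.  Then `[E : ℚ_p] = f (p-1)`, the value group of `E` is `‖π‖ ^ ℤ` and the
residue classes of the unit ball of `E` are `0` and the powers of `ζ`. -/
theorem tame_numbers {f : ℕ} (hf : 1 ≤ f) {ζ π : Ω} (hζE : ζ ∈ E) (hπE : π ∈ E)
    (hζ : IsPrimitiveRoot ζ (p ^ f - 1)) (hπ : ‖π‖ ^ (p - 1) = ‖((p : ℕ) : Ω)‖)
    (hfin : Module.finrank ℚ_[p] E ≤ f * (p - 1)) :
    Module.finrank ℚ_[p] E = f * (p - 1) ∧
      (∀ x ∈ E, x ≠ 0 → ∃ n : ℤ, ‖x‖ = ‖π‖ ^ n) ∧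
      (∀ x ∈ E, ‖x‖ ≤ 1 → ‖x‖ < 1 ∨ ∃ i : ℕ, ‖x - ζ ^ i‖ < 1) := by
  haveI := intRing_isDiscreteValuationRing p E
  haveI := intRing_isFractionRing p E
  obtain ⟨he, hfi, hdeg⟩ := ramIdx_inertDeg_of_finrank_le E hf hζE hπE hζ hπ hfin
  refine ⟨hdeg, exists_norm_eq_zpow E (by rw [he]; exact hπ), ?_⟩
  exact norm_lt_one_or_exists_pow E hfi hζE hζ

end Generic

/-- **(V) and the residue classes of `F = ℚ_p(ζ, ζ_p)`**, `ζ` a primitive `(p ^ f - 1)`-th root of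
unity, `ζ_p` a primitive `p`-th root of unity. -/
theorem cycloPair {f : ℕ} (hf : 1 ≤ f) {ζ ζp : Ω} (hζ : IsPrimitiveRoot ζ (p ^ f - 1))
    (hζp : IsPrimitiveRoot ζp p) :
    FiniteDimensional ℚ_[p] (adjoin ℚ_[p] {ζ, ζp}) ∧
      Module.finrank ℚ_[p] (adjoin ℚ_[p] {ζ, ζp}) = f * (p - 1) ∧
      (∀ x ∈ adjoin ℚ_[p] {ζ, ζp}, x ≠ 0 → ∃ n : ℤ, ‖x‖ = ‖ζp - 1‖ ^ n) ∧
      (∀ x ∈ adjoin ℚ_[p] {ζ, ζp}, ‖x‖ ≤ 1 → ‖x‖ < 1 ∨ ∃ i : ℕ, ‖x - ζ ^ i‖ < 1) := by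
  have hp : p.Prime := Fact.out
  have hintζ := isIntegral_of_isPrimitiveRoot hf hζ
  have hintζp : IsIntegral ℚ_[p] ζp := (hζp.isIntegral hp.pos).tower_top
  haveI : FiniteDimensional ℚ_[p] (adjoin ℚ_[p] {ζ, ζp}) :=
    finiteDimensional_adjoin_pair hintζ hintζp
  have hle : Module.finrank ℚ_[p] (adjoin ℚ_[p] {ζ, ζp}) ≤ f * (p - 1) := by
    have h1 : adjoin ℚ_[p] {ζ, ζp} = adjoin ℚ_[p] {ζ} ⊔ adjoin ℚ_[p] {ζp} := by
      rw [← adjoin_union, Set.singleton_union]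
    rw [h1]
    exact (finrank_sup_le _ _).trans
      (Nat.mul_le_mul (finrank_adjoin_rootOfUnity_le hf hζ) (finrank_adjoin_zetap_le hζp))
  have hζF : ζ ∈ adjoin ℚ_[p] {ζ, ζp} := subset_adjoin _ _ (by simp)
  have hζpF : ζp - 1 ∈ adjoin ℚ_[p] {ζ, ζp} :=
    sub_mem (subset_adjoin _ _ (by simp)) (one_mem _)
  obtain ⟨h1, h2, h3⟩ := tame_numbers (adjoin ℚ_[p] {ζ, ζp}) hf hζF hζpF hζ
    (norm_zetap_sub_one_pow' hζp) hle
  exact ⟨inferInstance, h1, h2, h3⟩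

/-- **The value group and the residue classes of `E = ℚ_p(ζ, π)`**, `ζ` a primitive
`(p ^ f - 1)`-th root of unity, `π ^ (p-1) = -p`. -/
theorem rootPair {f : ℕ} (hf : 1 ≤ f) {ζ π : Ω} (hζ : IsPrimitiveRoot ζ (p ^ f - 1))
    (hπ : π ^ (p - 1) = -((p : ℕ) : Ω)) :
    FiniteDimensional ℚ_[p] (adjoin ℚ_[p] {ζ, π}) ∧
      Module.finrank ℚ_[p] (adjoin ℚ_[p] {ζ, π}) = f * (p - 1) ∧
      (∀ x ∈ adjoin ℚ_[p] {ζ, π}, x ≠ 0 → ∃ n : ℤ, ‖x‖ = ‖π‖ ^ n) ∧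
      (∀ x ∈ adjoin ℚ_[p] {ζ, π}, ‖x‖ ≤ 1 → ‖x‖ < 1 ∨ ∃ i : ℕ, ‖x - ζ ^ i‖ < 1) := by
  have hintζ := isIntegral_of_isPrimitiveRoot hf hζ
  have hintπ := isIntegral_of_pow_eq_neg_p hπ
  haveI : FiniteDimensional ℚ_[p] (adjoin ℚ_[p] {ζ, π}) :=
    finiteDimensional_adjoin_pair hintζ hintπ
  have hζE : ζ ∈ adjoin ℚ_[p] {ζ, π} := subset_adjoin _ _ (by simp)
  have hπE : π ∈ adjoin ℚ_[p] {ζ, π} := subset_adjoin _ _ (by simp)
  obtain ⟨h1, h2, h3⟩ := tame_numbers (adjoin ℚ_[p] {ζ, π}) hf hζE hπE hζ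
    (norm_of_pow_eq_neg_p hπ) (finrank_adjoin_pair_le hf hζ hπ)
  exact ⟨inferInstance, h1, h2, h3⟩

/-! ### Galois plumbing for `F = ℚ_p(ζ, ζ_p)`: abelian, normal, fixed field -/

/-- An automorphism fixing a set of generators fixes the generated field. -/
theorem mem_fixingSubgroup_adjoin_of_forall {S : Set Ω} {σ : Ω ≃ₐ[ℚ_[p]] Ω}
    (h : ∀ x ∈ S, σ x = x) : σ ∈ (adjoin ℚ_[p] S).fixingSubgroup := by
  rw [IntermediateField.mem_fixingSubgroup_iff]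
  intro y hy
  induction hy using IntermediateField.adjoin_induction with
  | mem y hy => exact h y hy
  | algebraMap r => exact σ.commutes r
  | add y z _ _ hy hz => rw [map_add, hy, hz]
  | inv y _ hy => rw [map_inv₀, hy]
  | mul y z _ _ hy hz => rw [map_mul, hy, hz]

/-- Automorphisms commute on roots of unity. -/
theorem apply_apply_comm_of_isPrimitiveRoot {n : ℕ} (hn : n ≠ 0) {ζ : Ω}
    (hζ : IsPrimitiveRoot ζ n) (g h : Ω ≃ₐ[ℚ_[p]] Ω) : g (h ζ) = h (g ζ) := by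
  haveI : NeZero n := ⟨hn⟩
  obtain ⟨a, -, ha⟩ := hζ.eq_pow_of_pow_eq_one
    (show (g ζ) ^ n = 1 by rw [← map_pow, hζ.pow_eq_one, map_one])
  obtain ⟨b, -, hb⟩ := hζ.eq_pow_of_pow_eq_one
    (show (h ζ) ^ n = 1 by rw [← map_pow, hζ.pow_eq_one, map_one])
  rw [← ha, ← hb, map_pow, map_pow, ← ha, ← hb, ← pow_mul, ← pow_mul, mul_comm]

/-- Commutators fix roots of unity. -/
theorem commutator_apply_of_isPrimitiveRoot {n : ℕ} (hn : n ≠ 0) {ζ : Ω}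
    (hζ : IsPrimitiveRoot ζ n) (g h : Ω ≃ₐ[ℚ_[p]] Ω) : (g * h * g⁻¹ * h⁻¹) ζ = ζ := by
  set y := g⁻¹ (h⁻¹ ζ) with hy
  have hyprim : IsPrimitiveRoot y n :=
    (hζ.map_of_injective (h⁻¹ : Ω ≃ₐ[ℚ_[p]] Ω).injective).map_of_injective
      (g⁻¹ : Ω ≃ₐ[ℚ_[p]] Ω).injective
  have h1 : (g * h * g⁻¹ * h⁻¹) ζ = g (h y) := by
    simp only [AlgEquiv.mul_apply, hy]
  rw [h1, apply_apply_comm_of_isPrimitiveRoot hn hyprim g h, hy]
  have h2 : g (g⁻¹ (h⁻¹ ζ)) = h⁻¹ ζ := by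
    rw [← AlgEquiv.mul_apply, mul_inv_cancel, AlgEquiv.one_apply]
  rw [h2, ← AlgEquiv.mul_apply, mul_inv_cancel, AlgEquiv.one_apply]

/-- **`ℚ_p(ζ, ζ_p)/ℚ_p` is abelian**: all commutators of `Gal(Ω/ℚ_p)` fix `ℚ_p(ζ, ζ_p)`. -/
theorem commutator_mem_fixingSubgroup_cycloPair {n : ℕ} (hn : n ≠ 0) {ζ ζp : Ω}
    (hζ : IsPrimitiveRoot ζ n) (hζp : IsPrimitiveRoot ζp p) (g h : Ω ≃ₐ[ℚ_[p]] Ω) :
    g * h * g⁻¹ * h⁻¹ ∈ (adjoin ℚ_[p] {ζ, ζp}).fixingSubgroup := by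
  have hp : p.Prime := Fact.out
  apply mem_fixingSubgroup_adjoin_of_forall
  intro x hx
  rcases hx with rfl | hx
  · exact commutator_apply_of_isPrimitiveRoot hn hζ g h
  · rw [Set.mem_singleton_iff] at hx
    subst hx
    exact commutator_apply_of_isPrimitiveRoot hp.ne_zero hζp g h

/-- `ℚ_p(ζ, ζ_p)/ℚ_p` is Galois. -/
theorem isGalois_cycloPair {n : ℕ} (hn : n ≠ 0) {ζ ζp : Ω}
    (hζ : IsPrimitiveRoot ζ n) (hζp : IsPrimitiveRoot ζp p) :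
    IsGalois ℚ_[p] (adjoin ℚ_[p] {ζ, ζp}) := by
  have hp : p.Prime := Fact.out
  haveI : NeZero n := ⟨hn⟩
  haveI : NeZero p := ⟨hp.ne_zero⟩
  haveI : IsCyclotomicExtension {n} ℚ_[p] (adjoin ℚ_[p] {ζ}) :=
    hζ.intermediateField_adjoin_isCyclotomicExtension ℚ_[p]
  haveI : IsCyclotomicExtension {p} ℚ_[p] (adjoin ℚ_[p] {ζp}) :=
    hζp.intermediateField_adjoin_isCyclotomicExtension ℚ_[p]
  haveI : IsGalois ℚ_[p] (adjoin ℚ_[p] {ζ}) := IsCyclotomicExtension.isGalois {n} ℚ_[p] _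
  haveI : IsGalois ℚ_[p] (adjoin ℚ_[p] {ζp}) := IsCyclotomicExtension.isGalois {p} ℚ_[p] _
  have h1 : adjoin ℚ_[p] {ζ, ζp} = adjoin ℚ_[p] {ζ} ⊔ adjoin ℚ_[p] {ζp} := by
    rw [← adjoin_union, Set.singleton_union]
  rw [h1]
  infer_instance

/-- The absolute Galois group of `ℚ_p(ζ, ζ_p)` is normal in `Gal(Ω/ℚ_p)`. -/
theorem normal_fixingSubgroup_cycloPair {n : ℕ} (hn : n ≠ 0) {ζ ζp : Ω}
    (hζ : IsPrimitiveRoot ζ n) (hζp : IsPrimitiveRoot ζp p) :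
    (adjoin ℚ_[p] {ζ, ζp}).fixingSubgroup.Normal :=
  (InfiniteGalois.normal_iff_isGalois _).mpr (isGalois_cycloPair hn hζ hζp)

/-- The fixed field of the absolute Galois group of an intermediate field `E` is `E`. -/
theorem mem_of_forall_fixingSubgroup (E : IntermediateField ℚ_[p] Ω) {x : Ω}
    (hx : ∀ σ ∈ E.fixingSubgroup, σ x = x) : x ∈ E := by
  have h := InfiniteGalois.fixedField_fixingSubgroup E
  rw [← h]
  exact fun σ => hx σ.1 σ.2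

end Fermat.Agent.TW.OrdField
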