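import Mathlib

/-!
# TW / OrdField: the field `ordField p N = ℚ_p(μ_{p (p^{pN} - 1)})` of the ORD case (ruling R13)
-/

set_option autoImplicit false

namespace Fermat.Agent.TW.OrdField

/-- `ℚ_p(μ_{p (p^{pN} - 1)}) ⊆ PadicAlgCl p`: the compositum of the unramified extension of degree
`p N` and `ℚ_p(ζ_p)`. -/
noncomputable def ordField (p N : ℕ) [Fact p.Prime] : IntermediateField ℚ_[p] (PadicAlgCl p) :=
  IntermediateField.adjoin ℚ_[p] {z : PadicAlgCl p | z ^ (p * (p ^ (p * N) - 1)) = 1}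

theorem mem_ordField_of_pow_eq_one {p N : ℕ} [Fact p.Prime] {z : PadicAlgCl p}
    (hz : z ^ (p * (p ^ (p * N) - 1)) = 1) : z ∈ ordField p N :=
  IntermediateField.subset_adjoin _ _ hz

end Fermat.Agent.TW.OrdField
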