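import Fermat.Agent.TW.K1.NormDict
import Fermat.Agent.CFT.Local.CycloFrob

/-!
# TW / OrdField: degrees of the tame field `ℚ_p(ζ, π)`, `ζ` of order `p ^ f - 1`, `π ^ (p-1) = -p`
-/

set_option autoImplicit false
set_option linter.unusedSectionVars false
set_option linter.style.haveILetI false

open IsLocalRing IntermediateField Fermat.Agent.CFT Fermat.Agent.CFT.PadicTower
  Fermat.Agent.CFT.KummerLocal

namespace Fermat.Agent.TW.OrdField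

variable {p : ℕ} [Fact p.Prime]

local notation "Ω" => PadicAlgCl p

theorem pow_sub_one_ne_zero {f : ℕ} (hf : 1 ≤ f) : p ^ f - 1 ≠ 0 := by
  have hp : p.Prime := Fact.out
  have hpf : 2 ≤ p ^ f := le_trans hp.two_le (Nat.le_self_pow (by omega) p)
  omega

/-- `p ^ f - 1` is a unit of `ℤ_[p]`. -/
theorem isUnit_pow_sub_one {f : ℕ} (hf : 1 ≤ f) : IsUnit (((p ^ f - 1 : ℕ)) : ℤ_[p]) := by
  have hp : p.Prime := Fact.out
  have hpf : 2 ≤ p ^ f := le_trans hp.two_le (Nat.le_self_pow (by omega) p)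
  rw [PadicInt.isUnit_iff, PadicInt.norm_natCast_eq_one_iff]
  have hndvd : ¬ p ∣ p ^ f - 1 := by
    intro hd
    have h2 : p ∣ p ^ f := dvd_pow_self p (by omega)
    have h3 : p ^ f = (p ^ f - 1) + 1 := by omega
    rw [h3] at h2
    exact hp.one_lt.ne' (Nat.dvd_one.mp ((Nat.dvd_add_right hd).mp h2))
  exact (Nat.Prime.coprime_iff_not_dvd hp).mpr hndvd

/-- Generators of `E = K(S)` generate `E` over `K` as a field over itself. -/
theorem adjoin_subtype_eq_top {K L : Type*} [Field K] [Field L] [Algebra K L] {S : Set L}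
    {E : IntermediateField K L} (hE : E = adjoin K S) {S' : Set E}
    (hS' : Subtype.val '' S' = S) : adjoin K S' = ⊤ := by
  apply lift_injective E
  rw [lift_adjoin, lift_top, hS', hE]

/-- Two `K`-algebra automorphisms of `E` agreeing on a generating set are equal. -/
theorem algEquiv_ext_of_adjoin_eq_top {K E : Type*} [Field K] [Field E] [Algebra K E]
    [Algebra.IsAlgebraic K E] {S : Set E} (hS : adjoin K S = ⊤) {σ τ : E ≃ₐ[K] E}
    (h : ∀ x ∈ S, σ x = τ x) : σ = τ := by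
  have hS' : Algebra.adjoin K S = ⊤ := adjoin_eq_top_iff.mp hS
  have : (σ : E →ₐ[K] E) = (τ : E →ₐ[K] E) := AlgHom.ext_of_adjoin_eq_top hS' h
  ext x
  exact DFunLike.congr_fun this x

/-- `ℚ_p(ζ)/ℚ_p` is finite Galois for `ζ` a primitive `(p ^ f - 1)`-th root of unity. -/
theorem isGalois_adjoin_rootOfUnity {f : ℕ} (hf : 1 ≤ f) {ζ : Ω}
    (hζ : IsPrimitiveRoot ζ (p ^ f - 1)) :
    IsGalois ℚ_[p] (adjoin ℚ_[p] {ζ}) ∧ FiniteDimensional ℚ_[p] (adjoin ℚ_[p] {ζ}) := by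
  have hn0 := pow_sub_one_ne_zero (p := p) hf
  haveI : NeZero (p ^ f - 1) := ⟨hn0⟩
  haveI : IsCyclotomicExtension {p ^ f - 1} ℚ_[p] (adjoin ℚ_[p] {ζ}) :=
    hζ.intermediateField_adjoin_isCyclotomicExtension ℚ_[p]
  exact ⟨IsCyclotomicExtension.isGalois {p ^ f - 1} ℚ_[p] _,
    IsCyclotomicExtension.finiteDimensional {p ^ f - 1} ℚ_[p] _⟩

/-- **(a)** `ℚ_p(ζ)/ℚ_p` is unramified of degree dividing `f`, for `ζ` a primitive
`(p ^ f - 1)`-th root of unity. -/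
theorem isUnramExt_adjoin_rootOfUnity {f : ℕ} (hf : 1 ≤ f) {ζ : Ω}
    (hζ : IsPrimitiveRoot ζ (p ^ f - 1)) :
    IsUnramExt ℤ_[p] (adjoin ℚ_[p] {ζ}) ∧ Module.finrank ℚ_[p] (adjoin ℚ_[p] {ζ}) ∣ f := by
  obtain ⟨hgal, hfd⟩ := isGalois_adjoin_rootOfUnity hf hζ
  obtain ⟨E0, hE0⟩ : ∃ E0 : IntermediateField ℚ_[p] Ω, E0 = adjoin ℚ_[p] {ζ} := ⟨_, rfl⟩
  rw [← hE0]
  haveI : IsGalois ℚ_[p] E0 := hE0 ▸ hgal
  haveI : FiniteDimensional ℚ_[p] E0 := hE0 ▸ hfd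
  haveI := intRing_isLocalRing p E0
  haveI := Fermat.Agent.CFT.intRing_isLocalHom ℤ_[p] ℚ_[p] E0
  have hζE : ζ ∈ E0 := hE0 ▸ mem_adjoin_simple_self ℚ_[p] ζ
  set ζ' : E0 := ⟨ζ, hζE⟩ with hζ'
  have hζ'pow : ζ' ^ (p ^ f - 1) = 1 := Subtype.ext (by simpa using hζ.pow_eq_one)
  have htop : adjoin ℚ_[p] {ζ'} = ⊤ :=
    adjoin_subtype_eq_top hE0 (by rw [Set.image_singleton])
  have hunr : IsUnramExt ℤ_[p] E0 :=
    isUnramExt_of_adjoin_rootOfUnity ℤ_[p] ℚ_[p] (isUnit_pow_sub_one hf) hζ'pow htop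
  refine ⟨hunr, ?_⟩
  have hfr : frob ℤ_[p] ℚ_[p] E0 ζ' = ζ' ^ p := by
    have := IsFrob.apply_rootOfUnity (isUnit_pow_sub_one hf) hζ'pow (isFrob_frob ℤ_[p] ℚ_[p] E0)
    rwa [TameSym.card_residueField_padicInt] at this
  have hpow : ∀ k : ℕ, (frob ℤ_[p] ℚ_[p] E0 ^ k) ζ' = ζ' ^ (p ^ k) := by
    intro k
    induction k with
    | zero => simp
    | succ k ih =>
      rw [pow_succ', AlgEquiv.mul_apply, ih, map_pow, hfr, ← pow_mul, ← pow_succ']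
  have hone : frob ℤ_[p] ℚ_[p] E0 ^ f = 1 := by
    refine algEquiv_ext_of_adjoin_eq_top htop ?_
    intro x hx
    rw [Set.mem_singleton_iff] at hx
    subst hx
    rw [hpow, AlgEquiv.one_apply]
    have hp : p.Prime := Fact.out
    have h3 : p ^ f = (p ^ f - 1) + 1 := by
      have : 1 ≤ p ^ f := Nat.one_le_pow _ _ hp.pos
      omega
    rw [h3, pow_succ, hζ'pow, one_mul]
  have hdvd := orderOf_dvd_of_pow_eq_one hone
  rwa [orderOf_frob ℤ_[p] ℚ_[p] E0 hunr] at hdvd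

/-- `[ℚ_p(ζ) : ℚ_p] ≤ f` for `ζ` a primitive `(p ^ f - 1)`-th root of unity. -/
theorem finrank_adjoin_rootOfUnity_le {f : ℕ} (hf : 1 ≤ f) {ζ : Ω}
    (hζ : IsPrimitiveRoot ζ (p ^ f - 1)) :
    Module.finrank ℚ_[p] (adjoin ℚ_[p] {ζ}) ≤ f :=
  Nat.le_of_dvd (by omega) (isUnramExt_adjoin_rootOfUnity hf hζ).2

/-- `p - 1` divides `p ^ f - 1`. -/
theorem pred_dvd_pow_sub_one (f : ℕ) : p - 1 ∣ p ^ f - 1 :=
  Nat.sub_one_dvd_pow_sub_one p f

theorem pred_mul_div (f : ℕ) : (p ^ f - 1) / (p - 1) * (p - 1) = p ^ f - 1 :=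
  Nat.div_mul_cancel (pred_dvd_pow_sub_one f)

theorem isIntegral_of_pow_eq_neg_p {π : Ω} (hπ : π ^ (p - 1) = -((p : ℕ) : Ω)) :
    IsIntegral ℚ_[p] π := by
  have hp : p.Prime := Fact.out
  refine IsIntegral.of_pow (n := p - 1) (by have := hp.two_le; omega) ?_
  rw [hπ]
  have : -((p : ℕ) : Ω) = algebraMap ℚ_[p] Ω (-((p : ℕ) : ℚ_[p])) := by
    rw [map_neg, map_natCast]
  rw [this]
  exact isIntegral_algebraMap

theorem isIntegral_of_isPrimitiveRoot {f : ℕ} (hf : 1 ≤ f) {ζ : Ω}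
    (hζ : IsPrimitiveRoot ζ (p ^ f - 1)) : IsIntegral ℚ_[p] ζ :=
  (hζ.isIntegral (Nat.pos_of_ne_zero (pow_sub_one_ne_zero hf))).tower_top

/-- `[ℚ_p(π) : ℚ_p] ≤ p - 1`. -/
theorem finrank_adjoin_root_le {π : Ω} (hπ : π ^ (p - 1) = -((p : ℕ) : Ω)) :
    Module.finrank ℚ_[p] (adjoin ℚ_[p] {π}) ≤ p - 1 := by
  have hp : p.Prime := Fact.out
  have hint := isIntegral_of_pow_eq_neg_p hπ
  rw [adjoin.finrank hint]
  have hq : (Polynomial.X ^ (p - 1) + Polynomial.C ((p : ℕ) : ℚ_[p]) : Polynomial ℚ_[p]).natDegree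
      = p - 1 := by
    rw [Polynomial.natDegree_X_pow_add_C]
  have hroot : Polynomial.aeval π
      (Polynomial.X ^ (p - 1) + Polynomial.C ((p : ℕ) : ℚ_[p]) : Polynomial ℚ_[p]) = 0 := by
    rw [map_add, map_pow, Polynomial.aeval_X, Polynomial.aeval_C, hπ, map_natCast]
    ring
  have hne : (Polynomial.X ^ (p - 1) + Polynomial.C ((p : ℕ) : ℚ_[p]) : Polynomial ℚ_[p]) ≠ 0 := by
    intro h0
    have := congrArg Polynomial.natDegree h0
    rw [hq, Polynomial.natDegree_zero] at this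
    have := hp.two_le
    omega
  have := Polynomial.natDegree_le_of_dvd (minpoly.dvd ℚ_[p] π hroot) hne
  rwa [hq] at this

/-- **(b1)** `[ℚ_p(ζ, π) : ℚ_p] ≤ f (p - 1)`. -/
theorem finrank_adjoin_pair_le {f : ℕ} (hf : 1 ≤ f) {ζ π : Ω}
    (hζ : IsPrimitiveRoot ζ (p ^ f - 1)) (hπ : π ^ (p - 1) = -((p : ℕ) : Ω)) :
    Module.finrank ℚ_[p] (adjoin ℚ_[p] {ζ, π}) ≤ f * (p - 1) := by
  have h1 : adjoin ℚ_[p] {ζ, π} = adjoin ℚ_[p] {ζ} ⊔ adjoin ℚ_[p] {π} := by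
    rw [← adjoin_union, Set.singleton_union]
  rw [h1]
  exact (finrank_sup_le _ _).trans
    (Nat.mul_le_mul (finrank_adjoin_rootOfUnity_le hf hζ) (finrank_adjoin_root_le hπ))

theorem norm_of_pow_eq_neg_p {π : Ω} (hπ : π ^ (p - 1) = -((p : ℕ) : Ω)) :
    ‖π‖ ^ (p - 1) = ‖((p : ℕ) : Ω)‖ := by
  rw [← norm_pow, hπ, norm_neg]

section LayerB

open Fermat.Agent.TW.K1

variable (E : IntermediateField ℚ_[p] (PadicAlgCl p)) [FiniteDimensional ℚ_[p] E]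
  [IsDiscreteValuationRing (intRing p E)] [IsFractionRing (intRing p E) E]

/-- `p - 1 ≤ e(E/ℚ_p)` when `E` contains an element `π` with `‖π‖ ^ (p-1) = ‖p‖`. -/
theorem pred_le_ramIdx {π : Ω} (hπE : π ∈ E) (hn : ‖π‖ ^ (p - 1) = ‖((p : ℕ) : Ω)‖) :
    p - 1 ≤ ramIdx ℤ_[p] E := by
  have hp : p.Prime := Fact.out
  have hπ0 : (⟨π, hπE⟩ : E) ≠ 0 := by
    intro h0
    have h1 : π = 0 := congrArg Subtype.val h0
    rw [h1, norm_zero, zero_pow (by have := hp.two_le; omega)] at hn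
    exact (norm_natCast_prime_pos (p := p)).ne hn
  have h1 := norm_pow_ramIdx E hπ0
  have he : 0 < ramIdx ℤ_[p] E := ramIdx_pos ℤ_[p] ℚ_[p] E
  set n : ℤ := dvrOrd (intRing p E) E ⟨π, hπE⟩ with hn_def
  have h2 : ‖((p : ℕ) : Ω)‖ ^ ((ramIdx ℤ_[p] E : ℕ) : ℤ) =
      ‖((p : ℕ) : Ω)‖ ^ (n * ((p - 1 : ℕ) : ℤ)) := by
    rw [zpow_natCast, zpow_mul, zpow_natCast, ← h1, ← hn, ← pow_mul, ← pow_mul, mul_comm]
  have h3 := zpow_right_injective₀ (norm_natCast_prime_pos (p := p))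
    (norm_natCast_prime_lt_one (p := p)).ne h2
  have hp1 : (0 : ℤ) < ((p - 1 : ℕ) : ℤ) := by
    have := hp.two_le
    exact_mod_cast (by omega : 0 < p - 1)
  have hn1 : 1 ≤ n := by
    by_contra hlt
    have hle : n ≤ 0 := by omega
    have : n * ((p - 1 : ℕ) : ℤ) ≤ 0 := mul_nonpos_of_nonpos_of_nonneg hle hp1.le
    have he' : (0 : ℤ) < ((ramIdx ℤ_[p] E : ℕ) : ℤ) := by exact_mod_cast he
    omega
  have h4 : ((p - 1 : ℕ) : ℤ) ≤ ((ramIdx ℤ_[p] E : ℕ) : ℤ) := by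
    rw [h3]
    nlinarith
  exact_mod_cast h4

/-- `f ≤ f(E/ℚ_p)` when `E` contains a primitive `(p ^ f - 1)`-th root of unity. -/
theorem le_inertDeg {f : ℕ} (hf : 1 ≤ f) {ζ : Ω} (hζE : ζ ∈ E)
    (hζ : IsPrimitiveRoot ζ (p ^ f - 1)) : f ≤ inertDeg ℤ_[p] E := by
  haveI := intRing_finite_residueField p E
  have hp : p.Prime := Fact.out
  obtain ⟨n, hn⟩ : ∃ n : ℕ, n = p ^ f - 1 := ⟨_, rfl⟩
  have hn0 : n ≠ 0 := hn ▸ pow_sub_one_ne_zero hf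
  have hnu' := isUnit_pow_sub_one (p := p) hf
  rw [← hn] at hζ hnu'
  have hζ1 : ‖ζ‖ = 1 := norm_eq_one_of_isPrimitiveRoot hn0 hζ
  obtain ⟨ζ₀, hζ₀coe⟩ : ∃ ζ₀ : intRing p E, ((ζ₀ : E) : Ω) = ζ :=
    ⟨⟨⟨ζ, hζE⟩, (mem_intRing_iff E ⟨ζ, hζE⟩).mpr hζ1.le⟩, rfl⟩
  have hζ₀ : IsPrimitiveRoot ζ₀ n := by
    have h1 : IsPrimitiveRoot (algebraMap E Ω (algebraMap (intRing p E) E ζ₀)) n := by
      have : algebraMap E Ω (algebraMap (intRing p E) E ζ₀) = ζ := hζ₀coe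
      rw [this]; exact hζ
    exact IsPrimitiveRoot.of_map_of_injective
      (IsPrimitiveRoot.of_map_of_injective h1 (algebraMap E Ω).injective) Subtype.val_injective
  have hnu : IsUnit ((n : ℕ) : intRing p E) := by
    have := hnu'.map (algebraMap ℤ_[p] (intRing p E))
    rwa [map_natCast] at this
  obtain ⟨r, hr⟩ : ∃ r : ResidueField (intRing p E), r = residue (intRing p E) ζ₀ := ⟨_, rfl⟩
  have hrprim : IsPrimitiveRoot r n := by
    refine IsPrimitiveRoot.mk_of_lt r (Nat.pos_of_ne_zero hn0) ?_ ?_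
    · rw [hr, ← map_pow, hζ₀.pow_eq_one, map_one]
    · intro l hl0 hln hl1
      have hu := TameSym.isUnit_one_sub_pow hζ₀ hnu (k := l)
        (fun hd => absurd (Nat.le_of_dvd hl0 hd) (not_le.mpr hln))
      have h2 : residue (intRing p E) (1 - ζ₀ ^ l) = 0 := by
        rw [map_sub, map_one, map_pow, ← hr, hl1, sub_self]
      exact (mem_maximalIdeal _).mp ((residue_eq_zero_iff _).mp h2) hu
  have hr0 : r ≠ 0 := by
    intro h0
    have := hrprim.pow_eq_one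
    rw [h0, zero_pow hn0] at this
    exact zero_ne_one this
  letI : Fintype (ResidueField (intRing p E)) := Fintype.ofFinite _
  have hpow := FiniteField.pow_card_sub_one_eq_one r hr0
  rw [← Nat.card_eq_fintype_card, card_residueField_intRing] at hpow
  have hdvd := hrprim.dvd_of_pow_eq_one _ hpow
  have hfi : 0 < inertDeg ℤ_[p] E := inertDeg_pos ℤ_[p] ℚ_[p] E
  have h1 : 2 ≤ p ^ inertDeg ℤ_[p] E :=
    le_trans hp.two_le (Nat.le_self_pow (by omega) p)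
  have h2 : n ≤ p ^ inertDeg ℤ_[p] E - 1 := Nat.le_of_dvd (by omega) hdvd
  have h3 : p ^ f ≤ p ^ inertDeg ℤ_[p] E := by
    have : 1 ≤ p ^ f := Nat.one_le_pow _ _ hp.pos
    omega
  exact (Nat.pow_le_pow_iff_right hp.one_lt).mp h3

/-- **(b2)** the numbers of a field `E` of degree `≤ f (p-1)` containing a primitive
`(p ^ f - 1)`-th root of unity and an element `π` with `‖π‖ ^ (p-1) = ‖p‖`: `e = p - 1`,
`f(E/ℚ_p) = f`, `[E : ℚ_p] = f (p-1)`. -/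
theorem ramIdx_inertDeg_of_finrank_le {f : ℕ} (hf : 1 ≤ f) {ζ π : Ω} (hζE : ζ ∈ E) (hπE : π ∈ E)
    (hζ : IsPrimitiveRoot ζ (p ^ f - 1)) (hπ : ‖π‖ ^ (p - 1) = ‖((p : ℕ) : Ω)‖)
    (hfin : Module.finrank ℚ_[p] E ≤ f * (p - 1)) :
    ramIdx ℤ_[p] E = p - 1 ∧ inertDeg ℤ_[p] E = f ∧ Module.finrank ℚ_[p] E = f * (p - 1) := by
  have hp : p.Prime := Fact.out
  have h1 := pred_le_ramIdx E hπE hπ
  have h2 := le_inertDeg E hf hζE hζ
  have h3 := ramIdx_mul_inertDeg ℤ_[p] ℚ_[p] E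
  have hp1 : 0 < p - 1 := by have := hp.two_le; omega
  have h4 : ramIdx ℤ_[p] E * inertDeg ℤ_[p] E ≤ f * (p - 1) := h3 ▸ hfin
  have h5 : (p - 1) * f ≤ ramIdx ℤ_[p] E * f := Nat.mul_le_mul_right f h1
  have h6 : ramIdx ℤ_[p] E * f ≤ ramIdx ℤ_[p] E * inertDeg ℤ_[p] E := Nat.mul_le_mul_left _ h2
  have h7 : ramIdx ℤ_[p] E * f = (p - 1) * f := by
    have : f * (p - 1) = (p - 1) * f := mul_comm _ _
    omega
  have h8 : ramIdx ℤ_[p] E = p - 1 := Nat.eq_of_mul_eq_mul_right (by omega) h7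
  have h9 : ramIdx ℤ_[p] E * inertDeg ℤ_[p] E = ramIdx ℤ_[p] E * f := by
    have : f * (p - 1) = (p - 1) * f := mul_comm _ _
    omega
  have h10 : inertDeg ℤ_[p] E = f :=
    Nat.eq_of_mul_eq_mul_left (ramIdx_pos ℤ_[p] ℚ_[p] E) h9
  refine ⟨h8, h10, ?_⟩
  rw [← h3, h8, h10, mul_comm]

end LayerB

end Fermat.Agent.TW.OrdField
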