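import Fermat.Agent.TW.OrdField.OrdField
import Fermat.Agent.TW.LocFlat.OrdContracts

/-!
# TW / OrdField: `isOrdField_ordField : IsOrdField p (ordField p N)` (ruling R13, field half,
literal against the owner's `TW/LocFlat/OrdContracts.lean`)
-/

set_option autoImplicit false

namespace Fermat.Agent.TW.OrdField

open Fermat.Agent.TW.LocFlat

/-- **`ordField p N = ℚ_p(μ_{p (p^{pN} - 1)})` is an ORD field.** -/
theorem isOrdField_ordField (p : ℕ) [Fact p.Prime] {N : ℕ} (hN : 0 < N) :
    IsOrdField p (ordField p N) := by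
  obtain ⟨h1, h2, h3, h4, h5⟩ := isOrdField_ordField_clauses (p := p) hN
  exact ⟨h1, h2, h3, h4, h5⟩

end Fermat.Agent.TW.OrdField
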