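import Fermat.Agent.TW.OrdField.Defs
import Fermat.Agent.TW.OrdField.CycloField

/-!
# TW / OrdField: `ordField p N = ℚ_p(μ_{p (p^{pN} - 1)})` is an ORD field (ruling R13, field half)

`ordField p N = ℚ_p(ζ, ζ_p)` for any primitive `(p^{pN} - 1)`-th root of unity `ζ` and any
primitive `p`-th root of unity `ζ_p`; hence it is finite, Galois (abelian) over `ℚ_p`, contains
`μ_p`, and its value group is `‖ζ_p - 1‖ ^ ℤ` (`e = p - 1`).  `isOrdField_ordField_clauses` lists
the five fields of `LocFlat.IsOrdField` (owner's `OrdContracts.lean`) literally.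
-/

set_option autoImplicit false
set_option linter.unusedSectionVars false
set_option linter.style.haveILetI false

open IntermediateField

namespace Fermat.Agent.TW.OrdField

variable {p : ℕ} [Fact p.Prime]

local notation "Ω" => PadicAlgCl p

theorem one_le_mul_of_pos {N : ℕ} (hN : 0 < N) : 1 ≤ p * N :=
  Nat.mul_pos (Fact.out : p.Prime).pos hN

/-- The product of a primitive `(p^f - 1)`-th root of unity and a primitive `p`-th root of unity is
a primitive `p (p^f - 1)`-th root of unity. -/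
theorem isPrimitiveRoot_mul {f : ℕ} (hf : 1 ≤ f) {ζ ζp : Ω} (hζ : IsPrimitiveRoot ζ (p ^ f - 1))
    (hζp : IsPrimitiveRoot ζp p) : IsPrimitiveRoot (ζ * ζp) (p * (p ^ f - 1)) := by
  have hp : p.Prime := Fact.out
  have h1 : orderOf ζ = p ^ f - 1 := hζ.eq_orderOf.symm
  have h2 : orderOf ζp = p := hζp.eq_orderOf.symm
  have hcop : Nat.Coprime (orderOf ζ) (orderOf ζp) := by
    rw [h1, h2]
    refine (Nat.Prime.coprime_iff_not_dvd hp).mpr ?_ |>.symm
    intro hd
    have h3 : p ∣ p ^ f := dvd_pow_self p (by omega)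
    have h4 : p ^ f = (p ^ f - 1) + 1 := by
      have : 1 ≤ p ^ f := Nat.one_le_pow _ _ hp.pos
      omega
    rw [h4] at h3
    exact hp.one_lt.ne' (Nat.dvd_one.mp ((Nat.dvd_add_right hd).mp h3))
  have h5 := (Commute.all ζ ζp).orderOf_mul_eq_mul_orderOf_of_coprime hcop
  rw [h1, h2] at h5
  rw [mul_comm p, ← h5]
  exact IsPrimitiveRoot.orderOf _

/-- `ordField p N = ℚ_p(ζ, ζ_p)`. -/
theorem ordField_eq_adjoin_pair {N : ℕ} (hN : 0 < N) {ζ ζp : Ω}
    (hζ : IsPrimitiveRoot ζ (p ^ (p * N) - 1)) (hζp : IsPrimitiveRoot ζp p) :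
    ordField p N = adjoin ℚ_[p] {ζ, ζp} := by
  have hp : p.Prime := Fact.out
  have hf := one_le_mul_of_pos (p := p) hN
  have hm0 := pow_sub_one_ne_zero (p := p) hf
  apply le_antisymm
  · rw [ordField, adjoin_le_iff]
    intro z hz
    have hprim := isPrimitiveRoot_mul hf hζ hζp
    haveI : NeZero (p * (p ^ (p * N) - 1)) := ⟨Nat.mul_ne_zero hp.ne_zero hm0⟩
    obtain ⟨i, -, hi⟩ := hprim.eq_pow_of_pow_eq_one hz
    rw [SetLike.mem_coe, ← hi]
    exact pow_mem (mul_mem (subset_adjoin _ _ (by simp)) (subset_adjoin _ _ (by simp))) i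
  · rw [adjoin_le_iff]
    rintro z (rfl | hz)
    · apply mem_ordField_of_pow_eq_one
      rw [mul_comm, pow_mul, hζ.pow_eq_one, one_pow]
    · rw [Set.mem_singleton_iff] at hz
      subst hz
      apply mem_ordField_of_pow_eq_one
      rw [pow_mul, hζp.pow_eq_one, one_pow]

theorem exists_isPrimitiveRoot (n : ℕ) (hn : n ≠ 0) : ∃ ζ : Ω, IsPrimitiveRoot ζ n := by
  haveI : NeZero ((n : ℕ) : Ω) := ⟨by exact_mod_cast hn⟩
  exact HasEnoughRootsOfUnity.exists_primitiveRoot Ω n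

/-- **The five clauses of `IsOrdField p (ordField p N)`** (fd, normal, zeta_mem, val, comm), in the
literal shapes of the owner's `LocFlat.IsOrdField`. -/
theorem isOrdField_ordField_clauses {N : ℕ} (hN : 0 < N) :
    FiniteDimensional ℚ_[p] (ordField p N) ∧ Normal ℚ_[p] (ordField p N) ∧
      (∀ z : Ω, z ^ p = 1 → z ∈ ordField p N) ∧
      (∀ ζ : Ω, IsPrimitiveRoot ζ p → ∀ x ∈ ordField p N, x ≠ 0 →
        ∃ n : ℤ, ‖x‖ = ‖ζ - 1‖ ^ n) ∧
      (∀ g t : Ω ≃ₐ[ℚ_[p]] Ω, g * t * g⁻¹ * t⁻¹ ∈ (ordField p N).fixingSubgroup) := by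
  have hp : p.Prime := Fact.out
  have hf := one_le_mul_of_pos (p := p) hN
  have hm0 := pow_sub_one_ne_zero (p := p) hf
  obtain ⟨ζ, hζ⟩ := exists_isPrimitiveRoot (p := p) (p ^ (p * N) - 1) hm0
  obtain ⟨ζp, hζp⟩ := exists_isPrimitiveRoot (p := p) p hp.ne_zero
  have heq := ordField_eq_adjoin_pair hN hζ hζp
  refine ⟨?_, ?_, ?_, ?_, ?_⟩
  · rw [heq]; exact (cycloPair hf hζ hζp).1
  · rw [heq]
    haveI := isGalois_cycloPair hm0 hζ hζp
    infer_instance
  · intro z hz
    apply mem_ordField_of_pow_eq_one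
    rw [pow_mul, hz, one_pow]
  · intro ζ' hζ' x hx hx0
    rw [ordField_eq_adjoin_pair hN hζ hζ'] at hx
    exact (cycloPair hf hζ hζ').2.2.1 x hx hx0
  · intro g t
    rw [heq]
    exact commutator_mem_fixingSubgroup_cycloPair hm0 hζ hζp g t

end Fermat.Agent.TW.OrdField
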